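import Fermat.Agent.H40.MW.WCubeFinal

/-!
# P-MW / MW-GTAPP (row 696): SHIFT and WCUBE for every datum

Final wrapper: `ShiftStatement` and `WCubeStatement` from the basic facts, the GT principle
and the local product formula.  (SHIFT: `Fermat.Agent.H3.MW.shift_of`; WCUBE:
`Fermat.Agent.H40.MW.wcube`; Pluecker duality plugged in by `Fermat.Agent.H40.MW`.)
-/

set_option autoImplicit false

namespace Fermat.Agent.H3.MW

open Fermat.Agent.H92.MW

variable {R : Type} [CommRing R] [Algebra ℚ R] [IsDedekindDomain R]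

/-- **MW-GTAPP** (row 696): SHIFT and WCUBE for every datum, from `BasicStatement`,
the GT principle and the local product formula. -/
theorem shift_wcube (𝒞 : MWDatum R) (hB : BasicStatement 𝒞) (hGT : GTPrincipleStatement)
    (hLPF : LPFStatement 𝒞) : 𝒞.ShiftStatement ∧ 𝒞.WCubeStatement :=
  ⟨Fermat.Agent.H40.MW.shift_of_gt_lpf 𝒞 hB hGT hLPF,
    Fermat.Agent.H40.MW.wcube_of_gt_lpf 𝒞 hB hGT hLPF⟩

end Fermat.Agent.H3.MW
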