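import Mathlib

/-!
# P-MW / MW-GTAPP (helper3): sup-norms in a linearly ordered group with zero, pair products

Mathlib only.
-/

set_option autoImplicit false
set_option linter.unusedSectionVars false

noncomputable section

namespace Fermat.Agent.H3.MW

section Sup

variable {Γ : Type*} [LinearOrderedCommGroupWithZero Γ]
variable {ι κ : Type*} [Fintype ι] [Fintype κ]

/-- the sup of the `e`-th powers is the `e`-th power of the sup -/
theorem sup_pow_eq (f : ι → Γ) {e : ℕ} (he : 0 < e) :
    Finset.univ.sup (fun i => f i ^ e) = (Finset.univ.sup f) ^ e := by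
  have h := Finset.apply_sup_eq_sup_comp_of_linearOrder (s := (Finset.univ : Finset ι)) (f := f)
    (fun x : Γ => x ^ e) (fun a b hab => pow_le_pow_left₀ zero_le' hab e)
    (by show (⊥ : Γ) ^ e = ⊥; rw [bot_eq_zero, zero_pow he.ne'])
  exact h.symm

/-- left multiplication commutes with sup -/
theorem mul_sup_eq (c : Γ) (g : κ → Γ) :
    c * Finset.univ.sup g = Finset.univ.sup (fun j => c * g j) := by
  exact Finset.apply_sup_eq_sup_comp_of_linearOrder (s := (Finset.univ : Finset κ)) (f := g)
    (fun x : Γ => c * x) (fun a b hab => mul_le_mul_right hab c)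
    (by show c * (⊥ : Γ) = ⊥; rw [bot_eq_zero, mul_zero])

/-- right multiplication commutes with sup -/
theorem sup_mul_eq (f : ι → Γ) (c : Γ) :
    Finset.univ.sup f * c = Finset.univ.sup (fun i => f i * c) := by
  rw [mul_comm, mul_sup_eq]
  simp only [mul_comm]

/-- the sup of a product system is the product of the sups -/
theorem sup_prod_eq (f : ι → Γ) (g : κ → Γ) :
    Finset.univ.sup (fun p : ι × κ => f p.1 * g p.2) =
      Finset.univ.sup f * Finset.univ.sup g := by
  rw [← Finset.univ_product_univ, Finset.sup_product_left, sup_mul_eq]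
  refine Finset.sup_congr rfl fun i _ => ?_
  rw [mul_sup_eq]

/-- equal sups: every member of the first family is dominated by a member of the second -/
theorem exists_le_of_sup_le [Nonempty κ] (f : ι → Γ) (g : κ → Γ)
    (h : Finset.univ.sup f ≤ Finset.univ.sup g) (i : ι) : ∃ j, f i ≤ g j := by
  obtain ⟨j, -, hj⟩ := Finset.exists_mem_eq_sup (Finset.univ : Finset κ)
    Finset.univ_nonempty g
  exact ⟨j, (Finset.le_sup (f := f) (Finset.mem_univ i)).trans (h.trans hj.le)⟩

theorem sup_eq_zero_of_forall (f : ι → Γ) (h : ∀ i, f i = 0) :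
    Finset.univ.sup f = 0 := by
  rw [← bot_eq_zero]
  apply le_antisymm _ bot_le
  apply Finset.sup_le
  intro i _
  rw [h i, bot_eq_zero]

theorem eq_of_pow_eq {x y : Γ} {e : ℕ} (he : 0 < e) (h : x ^ e = y ^ e) : x = y :=
  (pow_left_inj he.ne').mp h

end Sup

section Pairs

variable {Γ : Type*} [CommMonoid Γ] {X : Type*}

/-- `∏_{a < b} δ (Q a) (Q b)` -/
def pairProd (δ : X → X → Γ) {k : ℕ} (Q : Fin k → X) : Γ :=
  ∏ a : Fin k, ∏ b : Fin k, if a < b then δ (Q a) (Q b) else 1

/-- `∏_{a, b} δ (P a) (Q b)` -/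
def crossProd (δ : X → X → Γ) {k l : ℕ} (P : Fin k → X) (Q : Fin l → X) : Γ :=
  ∏ a : Fin k, ∏ b : Fin l, δ (P a) (Q b)

theorem castAdd_lt_castAdd_iff' {k l : ℕ} (a b : Fin k) :
    Fin.castAdd l a < Fin.castAdd l b ↔ a < b := by
  rw [Fin.lt_def, Fin.lt_def]
  simp

theorem natAdd_lt_natAdd_iff' {k l : ℕ} (a b : Fin l) :
    Fin.natAdd k a < Fin.natAdd k b ↔ a < b := by
  rw [Fin.lt_def, Fin.lt_def]
  simp

theorem castAdd_lt_natAdd' {k l : ℕ} (a : Fin k) (b : Fin l) :
    Fin.castAdd l a < Fin.natAdd k b := by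
  rw [Fin.lt_def]
  simp only [Fin.val_castAdd, Fin.val_natAdd]
  omega

theorem not_natAdd_lt_castAdd' {k l : ℕ} (a : Fin l) (b : Fin k) :
    ¬ Fin.natAdd k a < Fin.castAdd l b := by
  rw [Fin.lt_def]
  simp only [Fin.val_castAdd, Fin.val_natAdd]
  omega

theorem pairProd_append (δ : X → X → Γ) {k l : ℕ} (P : Fin k → X) (Q : Fin l → X) :
    pairProd δ (Fin.append P Q) = pairProd δ P * pairProd δ Q * crossProd δ P Q := by
  unfold pairProd crossProd
  rw [Fin.prod_univ_add]
  have h1 : ∀ a : Fin k, (∏ b : Fin (k + l), if Fin.castAdd l a < b then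
      δ (Fin.append P Q (Fin.castAdd l a)) (Fin.append P Q b) else 1) =
      (∏ b : Fin k, if a < b then δ (P a) (P b) else 1) * ∏ b : Fin l, δ (P a) (Q b) := by
    intro a
    rw [Fin.prod_univ_add]
    congr 1
    · refine Finset.prod_congr rfl fun b _ => ?_
      simp only [castAdd_lt_castAdd_iff', Fin.append_left]
    · refine Finset.prod_congr rfl fun b _ => ?_
      rw [if_pos (castAdd_lt_natAdd' a b), Fin.append_left, Fin.append_right]
  have h2 : ∀ a : Fin l, (∏ b : Fin (k + l), if Fin.natAdd k a < b then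
      δ (Fin.append P Q (Fin.natAdd k a)) (Fin.append P Q b) else 1) =
      ∏ b : Fin l, if a < b then δ (Q a) (Q b) else 1 := by
    intro a
    rw [Fin.prod_univ_add]
    have h3 : (∏ b : Fin k, if Fin.natAdd k a < Fin.castAdd l b then
        δ (Fin.append P Q (Fin.natAdd k a)) (Fin.append P Q (Fin.castAdd l b)) else 1) = 1 := by
      apply Finset.prod_eq_one
      intro b _
      rw [if_neg (not_natAdd_lt_castAdd' a b)]
    rw [h3, one_mul]
    refine Finset.prod_congr rfl fun b _ => ?_
    simp only [natAdd_lt_natAdd_iff', Fin.append_right]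
  simp only [h1, h2, Finset.prod_mul_distrib]
  rw [mul_right_comm]

theorem crossProd_append_left (δ : X → X → Γ) {k k' l : ℕ} (P : Fin k → X) (P' : Fin k' → X)
    (Q : Fin l → X) :
    crossProd δ (Fin.append P P') Q = crossProd δ P Q * crossProd δ P' Q := by
  unfold crossProd
  rw [Fin.prod_univ_add]
  simp only [Fin.append_left, Fin.append_right]

theorem crossProd_append_right (δ : X → X → Γ) {k l l' : ℕ} (P : Fin k → X) (Q : Fin l → X)
    (Q' : Fin l' → X) :
    crossProd δ P (Fin.append Q Q') = crossProd δ P Q * crossProd δ P Q' := by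
  unfold crossProd
  simp only [Fin.prod_univ_add, Fin.append_left, Fin.append_right, Finset.prod_mul_distrib]

theorem prod_append {k l : ℕ} (P : Fin k → X) (Q : Fin l → X) (f : X → Γ) :
    ∏ a, f (Fin.append P Q a) = (∏ a, f (P a)) * ∏ a, f (Q a) := by
  rw [Fin.prod_univ_add]
  simp only [Fin.append_left, Fin.append_right]

/-- the cube identity for pair products -/
theorem pairProd_cube (δ : X → X → Γ) {k₁ k₂ k₃ : ℕ} (P₁ : Fin k₁ → X) (P₂ : Fin k₂ → X)
    (P₃ : Fin k₃ → X) :
    pairProd δ (Fin.append (Fin.append P₁ P₂) P₃) * pairProd δ P₁ * pairProd δ P₂ *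
        pairProd δ P₃ =
      pairProd δ (Fin.append P₁ P₂) * pairProd δ (Fin.append P₁ P₃) *
        pairProd δ (Fin.append P₂ P₃) := by
  simp only [pairProd_append, crossProd_append_left]
  simp only [mul_assoc, mul_left_comm, mul_comm]

end Pairs

end Fermat.Agent.H3.MW

end
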