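import Fermat.Agent.H3.MW.Interfaces
import Fermat.Agent.H3.MW.ValSup

/-!
# P-MW / MW-GTAPP (helper3): generic evaluation matrices in the tensor power

`TPow R d = R ⊗ ⋯ ⊗ R` (`d` factors).  A `ℚ`-algebra homomorphism `y : TPow R d → K` has points
`pts y a = y ∘ ι_a`; the generic evaluation matrix `genMat 𝒞 m r` of the rows `r : Fin k → Fin d`
specialises under `y` to the evaluation matrix of the points `pts y ∘ r`.
-/

set_option autoImplicit false
set_option linter.unusedSectionVars false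

noncomputable section

open Module Polynomial TensorProduct

namespace Fermat.Agent.H3.MW

open Fermat.Agent.H92.MW

/-- the `d`-th tensor power of `R` over `ℚ` -/
abbrev TPow (R : Type) [CommRing R] [Algebra ℚ R] (d : ℕ) : Type :=
  PiTensorProduct ℚ fun _ : Fin d => R

/-- the maximal minors index type -/
abbrev MinorIdx (n k : ℕ) : Type := {s : Finset (Fin n) // s.card = k}

section Minors

variable {K L : Type*} [CommRing K] [CommRing L] {k n : ℕ}

theorem minorVec_mul (M : Matrix (Fin k) (Fin k) K) (E : Matrix (Fin k) (Fin n) K)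
    (J : MinorIdx n k) : minorVec (M * E) J = M.det * minorVec E J := by
  unfold minorVec
  have h : (M * E).submatrix id (J.1.orderEmbOfFin J.2) =
      M * E.submatrix id (J.1.orderEmbOfFin J.2) := by
    ext i j
    simp [Matrix.mul_apply]
  rw [h, Matrix.det_mul]

theorem minorVec_map (φ : K →+* L) (E : Matrix (Fin k) (Fin n) K) (J : MinorIdx n k) :
    minorVec (E.map φ) J = φ (minorVec E J) := by
  unfold minorVec
  rw [RingHom.map_det]
  rfl

theorem minorVec_eq_zero_of_row_eq (E : Matrix (Fin k) (Fin n) K) {a b : Fin k} (hab : a ≠ b)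
    (h : E a = E b) (J : MinorIdx n k) : minorVec E J = 0 := by
  unfold minorVec
  apply Matrix.det_zero_of_row_eq hab
  ext j
  exact congrFun h _

theorem minorIdx_nonempty {k n : ℕ} (h : k ≤ n) : Nonempty (MinorIdx n k) := by
  obtain ⟨s, hs⟩ := Finset.exists_subset_card_eq (s := (Finset.univ : Finset (Fin n)))
    (n := k) (by rw [Finset.card_univ, Fintype.card_fin]; exact h)
  exact ⟨⟨s, hs.2⟩⟩

end Minors

section MinorsField

variable {K : Type*} [Field K] {k n : ℕ}

theorem minorVec_ne_zero (E : Matrix (Fin k) (Fin n) K) (h : LinearIndependent K E.row) :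
    minorVec E ≠ 0 := by
  classical
  have hrank : E.rank = k := by simpa using h.rank_matrix
  obtain ⟨κ, a, ha, hspan, hli⟩ := exists_linearIndependent' (K := K) E.col
  haveI : Finite κ := Finite.of_injective a ha
  letI : Fintype κ := Fintype.ofFinite κ
  have hcard : Fintype.card κ = k := by
    have h1 := linearIndependent_iff_card_eq_finrank_span.mp hli
    rw [h1, Set.finrank, hspan, ← Matrix.rank_eq_finrank_span_cols, hrank]
  -- the image of `a` is a `k`-subset of the columns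
  let s : Finset (Fin n) := Finset.univ.image a
  have hs : s.card = k := by
    rw [Finset.card_image_of_injective _ ha, Finset.card_univ, hcard]
  intro h0
  have hdet : (E.submatrix id (s.orderEmbOfFin hs)).det = 0 := congrFun h0 ⟨s, hs⟩
  -- the selected columns are linearly independent
  have hmem : ∀ i : Fin k, ∃ c : κ, a c = s.orderEmbOfFin hs i := by
    intro i
    have := Finset.orderEmbOfFin_mem s hs i
    obtain ⟨c, -, hc⟩ := Finset.mem_image.mp this
    exact ⟨c, hc⟩
  choose c hc using hmem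
  have hcinj : Function.Injective c := by
    intro i j hij
    have h1 : s.orderEmbOfFin hs i = s.orderEmbOfFin hs j := by rw [← hc i, ← hc j, hij]
    exact (s.orderEmbOfFin hs).injective h1
  have hli' : LinearIndependent K (E.submatrix id (s.orderEmbOfFin hs)).col := by
    have h2 : (E.submatrix id (s.orderEmbOfFin hs)).col = (E.col ∘ a) ∘ c := by
      ext j i
      simp only [Function.comp_apply, Matrix.col_apply, Matrix.submatrix_apply, id, hc j]
    rw [h2]
    exact hli.comp c hcinj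
  have hu := Matrix.linearIndependent_cols_iff_isUnit.mp hli'
  exact ((Matrix.isUnit_iff_isUnit_det _).mp hu).ne_zero hdet

end MinorsField

section Gen

variable {R : Type} [CommRing R] [Algebra ℚ R] [IsDedekindDomain R]

/-- the `a`-th coordinate embedding `R → R ⊗ ⋯ ⊗ R` -/
def tIn (R : Type) [CommRing R] [Algebra ℚ R] (d : ℕ) (a : Fin d) : R →ₐ[ℚ] TPow R d :=
  PiTensorProduct.singleAlgHom (R := ℚ) (A := fun _ : Fin d => R) a

/-- the generic evaluation matrix of the rows `r` at level `m` -/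
def genMat (𝒞 : MWDatum R) (m : ℕ) {d k : ℕ} (r : Fin k → Fin d) :
    Matrix (Fin k) (Fin (finrank ℚ (𝒞.W m))) (TPow R d) :=
  fun a j => tIn R d (r a) ((Module.finBasis ℚ (𝒞.W m) j : 𝒞.W m) : R)

/-- the generic maximal minors -/
def genMinor (𝒞 : MWDatum R) (m : ℕ) {d k : ℕ} (r : Fin k → Fin d)
    (J : MinorIdx (finrank ℚ (𝒞.W m)) k) : TPow R d :=
  minorVec (genMat 𝒞 m r) J

/-- the points of a homomorphism from the tensor power -/
def pts {K : Type} [Field K] [Algebra ℚ K] {d : ℕ} (y : TPow R d →ₐ[ℚ] K) :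
    Fin d → (R →ₐ[ℚ] K) :=
  fun a => y.comp (tIn R d a)

theorem pts_apply {K : Type} [Field K] [Algebra ℚ K] {d : ℕ} (y : TPow R d →ₐ[ℚ] K)
    (a : Fin d) (x : R) : pts y a x = y (tIn R d a x) := rfl

theorem pts_eq_of_comp {K : Type} [Field K] [Algebra ℚ K] {d : ℕ} (y : TPow R d →ₐ[ℚ] K)
    (P : Fin d → (R →ₐ[ℚ] K)) (h : ∀ a, y.comp (PiTensorProduct.singleAlgHom a) = P a) :
    pts y = P := by
  funext a
  exact h a

theorem map_genMat (𝒞 : MWDatum R) (m : ℕ) {d k : ℕ} (r : Fin k → Fin d)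
    {K : Type} [Field K] [Algebra ℚ K] (y : TPow R d →ₐ[ℚ] K) :
    (genMat 𝒞 m r).map (y : TPow R d →+* K) = evalMatrix 𝒞 m (pts y ∘ r) := by
  ext a j
  rfl

theorem map_genMinor (𝒞 : MWDatum R) (m : ℕ) {d k : ℕ} (r : Fin k → Fin d)
    {K : Type} [Field K] [Algebra ℚ K] (y : TPow R d →ₐ[ℚ] K)
    (J : MinorIdx (finrank ℚ (𝒞.W m)) k) :
    y (genMinor 𝒞 m r J) = minorVec (evalMatrix 𝒞 m (pts y ∘ r)) J := by
  unfold genMinor
  rw [← map_genMat, minorVec_map]
  rfl

/-- minors of the evaluation matrix of a tuple with a repeated point vanish -/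
theorem minorVec_evalMatrix_eq_zero (𝒞 : MWDatum R) (m : ℕ) {k : ℕ}
    {K : Type} [Field K] [Algebra ℚ K] (Q : Fin k → (R →ₐ[ℚ] K))
    (hQ : ¬ Function.Injective Q) (J : MinorIdx (finrank ℚ (𝒞.W m)) k) :
    minorVec (evalMatrix 𝒞 m Q) J = 0 := by
  obtain ⟨a, b, hab, hne⟩ := Function.not_injective_iff.mp hQ
  apply minorVec_eq_zero_of_row_eq _ hne
  ext j
  show Q a _ = Q b _
  rw [hab]

/-- minors of the evaluation matrix of the points of a dictionary -/
theorem minorVec_evalMatrix_of_isPtData (𝒞 : MWDatum R) {I : Ideal R} {d : ℕ}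
    {P : Fin d → (R →ₐ[ℚ] QQbar)} {M : Matrix (Fin d) (Fin d) QQbar}
    {E : (m : ℕ) → Matrix (Fin d) (Fin (finrank ℚ (𝒞.W m))) ℚ} (h : IsPtData 𝒞 I P M E)
    (m : ℕ) (J : MinorIdx (finrank ℚ (𝒞.W m)) d) :
    minorVec (evalMatrix 𝒞 m P) J = M.det * algebraMap ℚ QQbar (minorVec (E m) J) := by
  rw [h.2.2.2.1 m, minorVec_mul, minorVec_map]

/-- the generic polynomial `∏ (X - t_a)` -/
def tPolyGen (𝒞 : MWDatum R) (d : ℕ) : (TPow R d)[X] :=
  ∏ a : Fin d, (X - C (tIn R d a 𝒞.t))

theorem map_tPolyGen (𝒞 : MWDatum R) (d : ℕ) {K : Type} [Field K] [Algebra ℚ K]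
    (y : TPow R d →ₐ[ℚ] K) :
    (tPolyGen 𝒞 d).map (y : TPow R d →+* K) = ∏ a : Fin d, (X - C (pts y a 𝒞.t)) := by
  unfold tPolyGen
  rw [Polynomial.map_prod]
  refine Finset.prod_congr rfl fun a _ => ?_
  rw [Polynomial.map_sub, Polynomial.map_X, Polynomial.map_C]
  rfl

theorem map_coeff_tPolyGen (𝒞 : MWDatum R) (d : ℕ) {K : Type} [Field K] [Algebra ℚ K]
    (y : TPow R d →ₐ[ℚ] K) (k : ℕ) :
    y ((tPolyGen 𝒞 d).coeff k) = (∏ a : Fin d, (X - C (pts y a 𝒞.t))).coeff k := by
  rw [← map_tPolyGen, Polynomial.coeff_map]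
  rfl

end Gen

section Heights

open Height

/-- the height only depends on the function `ℕ → ℚ` -/
theorem logHeight_fin_congr {n n' : ℕ} (h : n = n') (f : ℕ → ℚ) :
    logHeight (fun i : Fin n => f i) = logHeight (fun i : Fin n' => f i) := by
  subst h
  rfl

theorem prod_fun_ne_zero {ι κ : Type*} {K : Type*} [Field K] {x : ι → K} {y : κ → K}
    (hx : x ≠ 0) (hy : y ≠ 0) : (fun p : ι × κ => x p.1 * y p.2) ≠ 0 := by
  obtain ⟨i, hi⟩ := Function.ne_iff.mp hx
  obtain ⟨j, hj⟩ := Function.ne_iff.mp hy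
  exact Function.ne_iff.mpr ⟨(i, j), mul_ne_zero hi hj⟩

theorem pow_fun_ne_zero {ι : Type*} {K : Type*} [Field K] {x : ι → K} (hx : x ≠ 0) (e : ℕ) :
    (fun i => x i ^ e) ≠ 0 := by
  obtain ⟨i, hi⟩ := Function.ne_iff.mp hx
  exact Function.ne_iff.mpr ⟨i, pow_ne_zero e hi⟩

end Heights

end Fermat.Agent.H3.MW

end
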