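import Fermat.Agent.H92.MW.BasicInterfaces

/-!
# P-MW / MW-GTAPP (row 696, sub-architect helper3): interfaces

`ShiftStatement` and `WCubeStatement` from the GT principle, the local product formula and
Pluecker duality.  This file fixes the sub-row statements; nothing is proved here.

* `GaussLinearStatement` (GTA-1, Mathlib only): Gauss's lemma for `∏ (X - z a)` and a valuation.
* `FieldPointsStatement` (GTA-2, Mathlib only): the embeddings of a number field.
* `TensorPointStatement` (GTA-3, Mathlib only): points of the tensor power of an algebra.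
* `IsPtData`, `HasPtData` : the points dictionary of an ideal.
-/

set_option autoImplicit false

noncomputable section

open Module Polynomial TensorProduct

namespace Fermat.Agent.H3.MW

open Fermat.Agent.H92.MW

/-- **GTA-1** (Mathlib only).  Gauss's lemma for a product of monic linear factors: the maximum
of the valuations of the coefficients of `∏ (X - z a)` is `∏ max 1 (v (z a))`. -/
def GaussLinearStatement : Prop :=
  ∀ (K : Type) [Field K] (Γ₀ : Type) [LinearOrderedCommGroupWithZero Γ₀] (v : Valuation K Γ₀)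
    (d : ℕ) (z : Fin d → K),
    (Finset.univ : Finset (Fin (d + 1))).sup
        (fun k => v ((∏ a : Fin d, (X - C (z a))).coeff (k : ℕ))) =
      ∏ a : Fin d, max 1 (v (z a))

/-- **GTA-2** (Mathlib only).  A finite extension `L` of `ℚ` of degree `n` has `n` distinct
embeddings into `ℚ̄`; the matrix `σ_a (β_b)` is invertible for every basis `β`, and the
characteristic polynomial of the multiplication by `x` is `∏ (X - σ_a x)`. -/
def FieldPointsStatement : Prop :=
  ∀ (L : Type) [Field L] [Algebra ℚ L] [FiniteDimensional ℚ L]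
    (β : Module.Basis (Fin (finrank ℚ L)) ℚ L),
    ∃ σ : Fin (finrank ℚ L) → (L →ₐ[ℚ] QQbar), Function.Injective σ ∧
      (Matrix.of fun a b => σ a (β b)).det ≠ 0 ∧
      ∀ x : L, ((LinearMap.mulLeft ℚ x).charpoly).map (algebraMap ℚ QQbar) =
        ∏ a, (X - C (σ a x))

/-- **GTA-3** (Mathlib only).  A `d`-tuple of points of `R` is a point of the `d`-th tensor
power. -/
def TensorPointStatement : Prop :=
  ∀ (R : Type) [CommRing R] [Algebra ℚ R] (d : ℕ) (K : Type) [Field K] [Algebra ℚ K]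
    (P : Fin d → (R →ₐ[ℚ] K)),
    ∃ y : (PiTensorProduct ℚ fun _ : Fin d => R) →ₐ[ℚ] K,
      ∀ a, y.comp (PiTensorProduct.singleAlgHom a) = P a

variable {R : Type} [CommRing R] [Algebra ℚ R] [IsDedekindDomain R]

/-- The points dictionary of an ideal `I` of degree `d`: the `ℚ̄`-points `P a` of `I`, an
invertible matrix `M` over `ℚ̄` and rational matrices `E m` (the matrix of `W m → R ⧸ I`) with
`evalMatrix m P = M * E m`, `ker (E m) = I ∩ W m` and `tCharpoly I = ∏ (X - t (P a))`. -/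
def IsPtData (𝒞 : MWDatum R) (I : Ideal R) {d : ℕ} (P : Fin d → (R →ₐ[ℚ] QQbar))
    (M : Matrix (Fin d) (Fin d) QQbar)
    (E : (m : ℕ) → Matrix (Fin d) (Fin (finrank ℚ (𝒞.W m))) ℚ) : Prop :=
  Function.Injective P ∧ (∀ a, ∀ x ∈ I, P a x = 0) ∧ M.det ≠ 0 ∧
    (∀ m, evalMatrix 𝒞 m P = M * (E m).map (algebraMap ℚ QQbar)) ∧
    (∀ m (w : 𝒞.W m), (E m).mulVec (coordVec 𝒞 m w) = 0 ↔ (w : R) ∈ I) ∧
    (𝒞.tCharpoly I).map (algebraMap ℚ QQbar) = ∏ a, (X - C (P a 𝒞.t))

/-- existence of a points dictionary -/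
def HasPtData (𝒞 : MWDatum R) (I : Ideal R) (d : ℕ) : Prop :=
  ∃ (P : Fin d → (R →ₐ[ℚ] QQbar)) (M : Matrix (Fin d) (Fin d) QQbar)
    (E : (m : ℕ) → Matrix (Fin d) (Fin (finrank ℚ (𝒞.W m))) ℚ), IsPtData 𝒞 I P M E

/-- block diagonal matrix on `Fin (d + d')` -/
def blockM {K : Type*} [Zero K] {d d' : ℕ} (M : Matrix (Fin d) (Fin d) K)
    (M' : Matrix (Fin d') (Fin d') K) : Matrix (Fin (d + d')) (Fin (d + d')) K :=
  Matrix.of fun a b =>
    Fin.addCases (fun a' => Fin.addCases (fun b' => M a' b') (fun _ => 0) b)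
      (fun a' => Fin.addCases (fun _ => 0) (fun b' => M' a' b') b) a

/-- stacking of two matrices with the same columns -/
def stackE {K : Type*} {d d' n : ℕ} (E : Matrix (Fin d) (Fin n) K)
    (E' : Matrix (Fin d') (Fin n) K) : Matrix (Fin (d + d')) (Fin n) K :=
  Matrix.of (Fin.append (fun a => E a) (fun a => E' a))

/-- **GTA-4** the points dictionary of a maximal ideal. -/
def PtDataMaximalStatement (𝒞 : MWDatum R) : Prop :=
  ∀ 𝔭 : Ideal R, 𝔭.IsMaximal → Module.Finite ℚ (R ⧸ 𝔭) → HasPtData 𝒞 𝔭 (𝒞.deg 𝔭)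

/-- **GTA-5** the points dictionary of a product of two coprime ideals. -/
def PtDataMulStatement (𝒞 : MWDatum R) : Prop :=
  ∀ (I J : Ideal R) (d d' : ℕ) (P : Fin d → (R →ₐ[ℚ] QQbar)) (M : Matrix (Fin d) (Fin d) QQbar)
    (E : (m : ℕ) → Matrix (Fin d) (Fin (finrank ℚ (𝒞.W m))) ℚ)
    (P' : Fin d' → (R →ₐ[ℚ] QQbar)) (M' : Matrix (Fin d') (Fin d') QQbar)
    (E' : (m : ℕ) → Matrix (Fin d') (Fin (finrank ℚ (𝒞.W m))) ℚ),
    I ⊔ J = ⊤ → 𝒞.tCharpoly (I * J) = 𝒞.tCharpoly I * 𝒞.tCharpoly J →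
    IsPtData 𝒞 I P M E → IsPtData 𝒞 J P' M' E' →
    IsPtData 𝒞 (I * J) (Fin.append P P') (blockM M M') (fun m => stackE (E m) (E' m))

/-- **GTA-6** the points dictionary of a nonzero squarefree ideal. -/
def PtDataSquarefreeStatement (𝒞 : MWDatum R) : Prop :=
  ∀ I : Ideal R, I ≠ ⊥ → Squarefree I → HasPtData 𝒞 I (𝒞.deg I)

/-- **GTA-7** the height `gH m I` is the height of the vector of maximal minors of `E m`. -/
def GHEqStatement (𝒞 : MWDatum R) : Prop :=
  ∀ (I : Ideal R) (d : ℕ) (P : Fin d → (R →ₐ[ℚ] QQbar)) (M : Matrix (Fin d) (Fin d) QQbar)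
    (E : (m : ℕ) → Matrix (Fin d) (Fin (finrank ℚ (𝒞.W m))) ℚ),
    IsPtData 𝒞 I P M E → I ≠ ⊥ → 𝒞.deg I = d → ∀ m : ℕ, d + 𝒞.m₀ ≤ m →
      LinearIndependent ℚ (E m).row ∧
        𝒞.gH m I = Height.logHeight (minorVec (E m))

end Fermat.Agent.H3.MW

end
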