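import Fermat.Agent.H3.MW.Interfaces

/-!
# P-MW / MW-GTAPP, GTA-6 (helper3): the points dictionary of a squarefree ideal

Induction over the factorisation: unit ideal, maximal ideals (`PtDataMaximalStatement`), products
of coprime ideals (`PtDataMulStatement`).
-/

set_option autoImplicit false
set_option linter.unusedSectionVars false

noncomputable section

open Module Polynomial TensorProduct

namespace Fermat.Agent.H3.MW

open Fermat.Agent.H92.MW

variable {R : Type} [CommRing R] [Algebra ℚ R] [IsDedekindDomain R]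

theorem deg_top (𝒞 : MWDatum R) : 𝒞.deg (⊤ : Ideal R) = 0 := by
  unfold MWDatum.deg
  haveI : Subsingleton (R ⧸ (⊤ : Ideal R)) := Ideal.Quotient.subsingleton_iff.mpr rfl
  exact Module.finrank_zero_of_subsingleton

theorem tCharpoly_top (𝒞 : MWDatum R) : 𝒞.tCharpoly (⊤ : Ideal R) = 1 := by
  unfold MWDatum.tCharpoly
  by_cases h : Module.Finite ℚ (R ⧸ (⊤ : Ideal R))
  · rw [dif_pos h]
    haveI := h
    haveI : Subsingleton (R ⧸ (⊤ : Ideal R)) := Ideal.Quotient.subsingleton_iff.mpr rfl
    have hm := LinearMap.charpoly_monic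
      (LinearMap.mulLeft ℚ (Ideal.Quotient.mk (⊤ : Ideal R) 𝒞.t))
    have hd := LinearMap.charpoly_natDegree
      (LinearMap.mulLeft ℚ (Ideal.Quotient.mk (⊤ : Ideal R) 𝒞.t))
    rw [Module.finrank_zero_of_subsingleton] at hd
    exact (Polynomial.Monic.natDegree_eq_zero hm).mp hd
  · rw [dif_neg h]

/-- the points dictionary of the unit ideal -/
theorem hasPtData_top (𝒞 : MWDatum R) : HasPtData 𝒞 (⊤ : Ideal R) 0 := by
  refine ⟨fun a => a.elim0, 1, fun m => Matrix.of fun a _ => a.elim0, ?_, ?_, ?_, ?_, ?_, ?_⟩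
  · intro a; exact a.elim0
  · intro a; exact a.elim0
  · rw [Matrix.det_isEmpty]; exact one_ne_zero
  · intro m; ext a; exact a.elim0
  · intro m w
    constructor
    · intro _; exact Submodule.mem_top
    · intro _; ext a; exact a.elim0
  · rw [tCharpoly_top, Polynomial.map_one, Finset.univ_eq_empty, Finset.prod_empty]

theorem sup_eq_top_of_isRelPrime {x y : Ideal R} (h : IsRelPrime x y) : x ⊔ y = ⊤ := by
  have h1 : IsUnit (x ⊔ y) :=
    h (Ideal.dvd_iff_le.mpr le_sup_left) (Ideal.dvd_iff_le.mpr le_sup_right)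
  exact Ideal.isUnit_iff.mp h1

/-- **GTA-6** -/
theorem ptDataSquarefree (𝒞 : MWDatum R) (hB : BasicStatement 𝒞)
    (hMax : PtDataMaximalStatement 𝒞) (hMul : PtDataMulStatement 𝒞) :
    PtDataSquarefreeStatement 𝒞 := by
  intro I
  induction I using UniqueFactorizationMonoid.induction_on_coprime with
  | h0 =>
    intro h _
    exact absurd Ideal.zero_eq_bot h
  | h1 hx =>
    intro _ _
    rw [Ideal.isUnit_iff.mp hx, deg_top]
    exact hasPtData_top 𝒞
  | hpr i hp =>
    intro h0 hsq
    rcases Nat.lt_or_ge i 2 with hi | hi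
    · interval_cases i
      · rw [pow_zero, Ideal.one_eq_top, deg_top]
        exact hasPtData_top 𝒞
      · rw [pow_one] at h0 ⊢
        have hprime : Ideal.IsPrime _ := (Ideal.prime_iff_isPrime h0).mp hp
        exact hMax _ (hprime.isMaximal h0) (hB.1 _ h0)
    · exfalso
      apply hp.not_isUnit
      apply hsq
      obtain ⟨j, rfl⟩ : ∃ j, i = 2 + j := ⟨i - 2, by omega⟩
      rw [pow_add, pow_two]
      exact dvd_mul_right _ _
  | hcp hrel hx hy =>
    rename_i x y
    intro h0 hsq
    have hx0 : x ≠ ⊥ := by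
      rintro rfl
      exact h0 (by rw [Ideal.bot_mul])
    have hy0 : y ≠ ⊥ := by
      rintro rfl
      exact h0 (by rw [Ideal.mul_bot])
    obtain ⟨P, M, E, hd⟩ := hx hx0 (Squarefree.of_mul_left hsq)
    obtain ⟨P', M', E', hd'⟩ := hy hy0 (Squarefree.of_mul_right hsq)
    rw [hB.2.2.2.2.1 x y hx0 hy0]
    exact ⟨_, _, _, hMul x y _ _ P M E P' M' E' (sup_eq_top_of_isRelPrime hrel)
      (hB.2.2.2.2.2 x y hx0 hy0) hd hd'⟩

end Fermat.Agent.H3.MW

end
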