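import Fermat.Agent.H3.MW.Generic

/-!
# P-MW / MW-GTAPP, GTA-8 (helper3): the SHIFT contract

`G_{m+1}(I) = G_m(I) + h_∞(I) + O(1)` for squarefree `I`, from the GT principle applied to the
systems `a = (level-(m+1) minors)^e`, `b = (level-m minors)^e * (coefficients of ∏ (X - t_a))`
in the `d`-th tensor power of `R`; the valuative hypothesis is the local product formula together
with Gauss's lemma.
-/

set_option autoImplicit false
set_option linter.unusedSectionVars false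

noncomputable section

open Module Polynomial TensorProduct

namespace Fermat.Agent.H3.MW

open Fermat.Agent.H92.MW Height

variable {R : Type} [CommRing R] [Algebra ℚ R] [IsDedekindDomain R]

/-- degree and leading coefficient of `tCharpoly` from the points dictionary -/
theorem natDegree_tCharpoly_of_isPtData (𝒞 : MWDatum R) {I : Ideal R} {d : ℕ}
    {P : Fin d → (R →ₐ[ℚ] QQbar)} {M : Matrix (Fin d) (Fin d) QQbar}
    {E : (m : ℕ) → Matrix (Fin d) (Fin (finrank ℚ (𝒞.W m))) ℚ} (h : IsPtData 𝒞 I P M E) :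
    (𝒞.tCharpoly I).natDegree = d ∧ 𝒞.tCharpoly I ≠ 0 := by
  have h1 := h.2.2.2.2.2
  have h2 : (∏ a : Fin d, (X - C (P a 𝒞.t)) : QQbar[X]).natDegree = d := by
    rw [Polynomial.natDegree_finset_prod_X_sub_C_eq_card, Finset.card_univ, Fintype.card_fin]
  have h3 : (∏ a : Fin d, (X - C (P a 𝒞.t)) : QQbar[X]) ≠ 0 :=
    Finset.prod_ne_zero_iff.mpr fun a _ => Polynomial.X_sub_C_ne_zero _
  constructor
  · rw [← h2, ← h1, Polynomial.natDegree_map]
  · intro h0
    rw [h0, Polynomial.map_zero] at h1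
    exact h3 h1.symm

/-- **GTA-8 (SHIFT)** -/
theorem shift (𝒞 : MWDatum R) (hB : BasicStatement 𝒞) (hGT : GTPrincipleStatement)
    (hLPF : LPFStatement 𝒞) (hG : GaussLinearStatement) (hT : TensorPointStatement)
    (hPt : PtDataSquarefreeStatement 𝒞) (hGH : GHEqStatement 𝒞) : 𝒞.ShiftStatement := by
  intro m d hm
  by_cases hdn : d ≤ finrank ℚ (𝒞.W m)
  swap
  · refine ⟨0, fun I hI0 _ hdeg => ?_⟩
    exfalso
    apply hdn
    have h1 := hB.2.1 I m hI0 (by rw [hdeg]; exact hm)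
    have h2 := 𝒞.W_finrank m (by omega)
    rw [hdeg] at h1
    omega
  have hdn' : d ≤ finrank ℚ (𝒞.W (m + 1)) := by
    have h2 := 𝒞.W_finrank m (by omega)
    have h3 := 𝒞.W_finrank (m + 1) (by omega)
    omega
  haveI : Nonempty (MinorIdx (finrank ℚ (𝒞.W m)) d) := minorIdx_nonempty hdn
  haveI : Nonempty (MinorIdx (finrank ℚ (𝒞.W (m + 1))) d) := minorIdx_nonempty hdn'
  obtain ⟨C, hC⟩ := hGT (TPow R d) (MinorIdx (finrank ℚ (𝒞.W (m + 1))) d)
    (MinorIdx (finrank ℚ (𝒞.W m)) d × Fin (d + 1))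
    (fun J => genMinor 𝒞 (m + 1) id J ^ 𝒞.e)
    (fun p => genMinor 𝒞 m id p.1 ^ 𝒞.e * (tPolyGen 𝒞 d).coeff (p.2 : ℕ)) (by
      intro K _ _ _ V hV y
      have key : (Finset.univ.sup fun J : MinorIdx (finrank ℚ (𝒞.W (m + 1))) d =>
            V.valuation (y (genMinor 𝒞 (m + 1) id J ^ 𝒞.e))) =
          Finset.univ.sup fun p : MinorIdx (finrank ℚ (𝒞.W m)) d × Fin (d + 1) =>
            V.valuation (y (genMinor 𝒞 m id p.1 ^ 𝒞.e * (tPolyGen 𝒞 d).coeff (p.2 : ℕ))) := by
        by_cases hinj : Function.Injective (pts y)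
        · obtain ⟨δ, hδ⟩ := hLPF K V hV
          have h1 := hδ (m + 1) d (by omega) (pts y) hinj
          have h2 := hδ m d hm (pts y) hinj
          have hg := hG K V.ValueGroup V.valuation d (fun a => pts y a 𝒞.t)
          have hL : (Finset.univ.sup fun J : MinorIdx (finrank ℚ (𝒞.W (m + 1))) d =>
              V.valuation (y (genMinor 𝒞 (m + 1) id J ^ 𝒞.e))) =
              (Finset.univ.sup fun J =>
                V.valuation (minorVec (evalMatrix 𝒞 (m + 1) (pts y)) J)) ^ 𝒞.e := by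
            rw [← sup_pow_eq _ 𝒞.e_pos]
            refine Finset.sup_congr rfl fun J _ => ?_
            rw [map_pow, map_pow, map_genMinor]
            rfl
          have hR : (Finset.univ.sup fun p : MinorIdx (finrank ℚ (𝒞.W m)) d × Fin (d + 1) =>
              V.valuation (y (genMinor 𝒞 m id p.1 ^ 𝒞.e * (tPolyGen 𝒞 d).coeff (p.2 : ℕ)))) =
              (Finset.univ.sup fun J =>
                V.valuation (minorVec (evalMatrix 𝒞 m (pts y)) J)) ^ 𝒞.e *
              (Finset.univ : Finset (Fin (d + 1))).sup (fun k =>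
                V.valuation ((∏ a : Fin d, (X - C (pts y a 𝒞.t))).coeff (k : ℕ))) := by
            rw [← sup_pow_eq _ 𝒞.e_pos, ← sup_prod_eq]
            refine Finset.sup_congr rfl fun p _ => ?_
            rw [map_mul, map_mul, map_pow, map_pow, map_genMinor, map_coeff_tPolyGen]
            rfl
          rw [hL, hR, h1, h2, hg, pow_succ, mul_right_comm]
        · rw [sup_eq_zero_of_forall, sup_eq_zero_of_forall]
          · intro p
            rw [map_mul, map_pow, map_genMinor,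
              minorVec_evalMatrix_eq_zero 𝒞 m (pts y ∘ id) hinj, zero_pow 𝒞.e_pos.ne', zero_mul,
              map_zero]
          · intro J
            rw [map_pow, map_genMinor,
              minorVec_evalMatrix_eq_zero 𝒞 (m + 1) (pts y ∘ id) hinj, zero_pow 𝒞.e_pos.ne',
              map_zero]
      exact ⟨fun i => exists_le_of_sup_le _ _ key.le i,
        fun j => exists_le_of_sup_le _ _ key.ge j⟩)
  refine ⟨C / 𝒞.e, fun I hI0 hsq hdeg => ?_⟩
  subst hdeg
  obtain ⟨P, M, E, hdata⟩ := hPt I hI0 hsq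
  obtain ⟨y, hy⟩ := hT R (𝒞.deg I) QQbar P
  have hpts : pts y = P := pts_eq_of_comp y P hy
  obtain ⟨hli1, hgh1⟩ := hGH I _ P M E hdata hI0 rfl (m + 1) (by omega)
  obtain ⟨hli0, hgh0⟩ := hGH I _ P M E hdata hI0 rfl m hm
  have hM : M.det ≠ 0 := hdata.2.2.1
  obtain ⟨hnat, hne⟩ := natDegree_tCharpoly_of_isPtData 𝒞 hdata
  have hCy := hC y ((M.det ^ 𝒞.e)⁻¹) (fun J => minorVec (E (m + 1)) J ^ 𝒞.e)
    (fun p => minorVec (E m) p.1 ^ 𝒞.e * (𝒞.tCharpoly I).coeff (p.2 : ℕ))
    (inv_ne_zero (pow_ne_zero _ hM)) (by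
      intro J
      have h1 : pts y ∘ id = P := hpts
      have h2 : y (genMinor 𝒞 (m + 1) id J ^ 𝒞.e) =
          (M.det * algebraMap ℚ QQbar (minorVec (E (m + 1)) J)) ^ 𝒞.e := by
        rw [map_pow, map_genMinor, h1, minorVec_evalMatrix_of_isPtData 𝒞 hdata]
      rw [h2, mul_pow, ← mul_assoc, inv_mul_cancel₀ (pow_ne_zero _ hM), one_mul, map_pow]) (by
      intro p
      have h1 : pts y ∘ id = P := hpts
      have h2 : y (genMinor 𝒞 m id p.1 ^ 𝒞.e * (tPolyGen 𝒞 (𝒞.deg I)).coeff (p.2 : ℕ)) =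
          (M.det * algebraMap ℚ QQbar (minorVec (E m) p.1)) ^ 𝒞.e *
            algebraMap ℚ QQbar ((𝒞.tCharpoly I).coeff (p.2 : ℕ)) := by
        rw [map_mul, map_pow, map_genMinor, map_coeff_tPolyGen, h1, hpts,
          minorVec_evalMatrix_of_isPtData 𝒞 hdata, ← hdata.2.2.2.2.2, Polynomial.coeff_map]
      rw [h2, mul_pow, ← mul_assoc, ← mul_assoc, inv_mul_cancel₀ (pow_ne_zero _ hM), one_mul,
        map_mul, map_pow])
  -- heights
  have hX0 : (fun J => minorVec (E m) J ^ 𝒞.e) ≠ 0 :=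
    pow_fun_ne_zero (minorVec_ne_zero (E m) hli0) 𝒞.e
  have hc0 : (fun k : Fin (𝒞.deg I + 1) => (𝒞.tCharpoly I).coeff (k : ℕ)) ≠ 0 := by
    intro h0
    have h1 := congrFun h0 ⟨𝒞.deg I, Nat.lt_succ_self _⟩
    simp only [Pi.zero_apply] at h1
    rw [← hnat, Polynomial.coeff_natDegree, Polynomial.leadingCoeff_eq_zero] at h1
    exact hne h1
  have ha : logHeight (fun J => minorVec (E (m + 1)) J ^ 𝒞.e) = 𝒞.e * 𝒞.gH (m + 1) I := by
    rw [hgh1]
    exact logHeight_pow (minorVec (E (m + 1))) 𝒞.e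
  have hb : logHeight (fun p : MinorIdx (finrank ℚ (𝒞.W m)) (𝒞.deg I) × Fin (𝒞.deg I + 1) =>
      minorVec (E m) p.1 ^ 𝒞.e * (𝒞.tCharpoly I).coeff (p.2 : ℕ)) =
      𝒞.e * 𝒞.gH m I + 𝒞.hT I := by
    rw [logHeight_fun_mul_eq hX0 hc0, hgh0]
    congr 1
    · exact logHeight_pow (minorVec (E m)) 𝒞.e
    · unfold MWDatum.hT polyHeight
      exact (logHeight_fin_congr (by rw [hnat]) (fun k => (𝒞.tCharpoly I).coeff k)).symm
  rw [ha, hb] at hCy
  have he : (0 : ℝ) < 𝒞.e := by exact_mod_cast 𝒞.e_pos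
  have hrew : 𝒞.gH (m + 1) I - 𝒞.gH m I - 𝒞.hInf I =
      (𝒞.e * 𝒞.gH (m + 1) I - (𝒞.e * 𝒞.gH m I + 𝒞.hT I)) / 𝒞.e := by
    unfold MWDatum.hInf
    field_simp
    ring
  rw [hrew, abs_div, abs_of_pos he]
  exact div_le_div_of_nonneg_right hCy he.le

end Fermat.Agent.H3.MW

end
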