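import Fermat.Agent.H3.MW.Shift
import Fermat.Agent.H3.MW.PtSquarefree
import Fermat.Agent.H51.MW.GaussLinear
import Fermat.Agent.H17.MWGta.FieldPoints
import Fermat.Agent.H57.MW.TensorPoint
import Fermat.Agent.H34.MW.PtDataMaximal
import Fermat.Agent.H98.MW.PtDataMul
import Fermat.Agent.H42.MW.GHEq

/-!
# P-MW / MW-GTAPP (row 696, helper3): SHIFT from GT + LPF + Pluecker duality

All sub-rows (GTA-1 .. GTA-7) plugged in.
-/

set_option autoImplicit false

noncomputable section

namespace Fermat.Agent.H3.MW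

open Fermat.Agent.H92.MW

variable {R : Type} [CommRing R] [Algebra ℚ R] [IsDedekindDomain R]

/-- the points dictionary of every nonzero squarefree ideal -/
theorem ptDataSquarefree_of_basic (𝒞 : MWDatum R) (hB : BasicStatement 𝒞) :
    PtDataSquarefreeStatement 𝒞 :=
  ptDataSquarefree 𝒞 hB
    (Fermat.Agent.H34.MW.ptDataMaximal 𝒞 Fermat.Agent.H17.MWGta.fieldPoints)
    (Fermat.Agent.H98.MW.ptDataMul 𝒞)

/-- **SHIFT** from the GT principle, the local product formula and Pluecker duality. -/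
theorem shift_of (𝒞 : MWDatum R) (hB : BasicStatement 𝒞) (hGT : GTPrincipleStatement)
    (hLPF : LPFStatement 𝒞) (hD : PluckerDualityHeightStatement) : 𝒞.ShiftStatement :=
  shift 𝒞 hB hGT hLPF Fermat.Agent.H51.MW.gaussLinear Fermat.Agent.H57.MW.tensorPoint
    (ptDataSquarefree_of_basic 𝒞 hB) (Fermat.Agent.H42.MW.gHEq 𝒞 hB hD)

end Fermat.Agent.H3.MW

end
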